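import Fermat.Agent.DS.G1.Gal.Embed
import Fermat.Agent.DS.G1.Core.Conj
import Fermat.Agent.DS.G1.Classes.Descent
import Fermat.Agent.DS.G1.LevelOne

/-!
# The Galois action on classes
-/

set_option autoImplicit false

noncomputable section

namespace Fermat.Agent.DS.G1

open Fermat.Agent.DS ModularCurve

variable {M : ℕ} [NeZero M]

/-- The families with algebraic expansions. -/
abbrev algFam (M : ℕ) [NeZero M] : Subring (Fam M M) := intFam M M Kb.toSubfield.toSubring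

theorem mem_algFam {X : Fam M M} :
    X ∈ algFam M ↔ ∀ v n, IsAlgebraic ℚ ((famExp v X).coeff n) :=
  mem_intFam.trans (forall₂_congr fun _ _ => isAlgebraic_iff_mem_Kb.symm)

theorem famConst_mem_algFam {c : ℂ} (hc : IsAlgebraic ℚ c) : famConst M M c ∈ algFam M :=
  mem_intFam.2 fun v n => by
    rw [famExp_famConst, HahnSeries.C_apply]
    rcases eq_or_ne n 0 with rfl | hn
    · rw [HahnSeries.coeff_single_same]; exact isAlgebraic_iff_mem_Kb.1 hc
    · rw [HahnSeries.coeff_single_of_ne hn]; exact zero_mem _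

theorem famScal_mem_intFam {S : Subring ℂ} (u : (ZMod M)ˣ) {X : Fam M M}
    (hX : X ∈ intFam M M S) : famScal u X ∈ intFam M M S :=
  mem_intFam.2 fun v n => by rw [famExp_famScal]; exact mem_intFam.1 hX _ n

theorem IsConj.ne_zero {f : ℂ →+* ℂ} {s : (ZMod M)ˣ} {X Y : Fam M M}
    (h : IsConj f s X Y) (hX : X ≠ 0) : Y ≠ 0 := by
  rintro rfl
  refine fam_ne_zero_exp hX (base M) ((map_eq_zero_iff (coeffMap f)
    (Fermat.Agent.Igusa.coeffMap_injective f.injective)).1 ?_)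
  rw [← h (base M), map_zero]

theorem IsConj.comp {f g : ℂ →+* ℂ} {s t : (ZMod M)ˣ} {X Y Z : Fam M M}
    (h : IsConj g t X Y) (h' : IsConj f s Y Z) : IsConj (f.comp g) (s * t) X Z := fun v => by
  rw [twist_mul, h', h]
  ext n
  simp

theorem IsConj.congr {f g : ℂ →+* ℂ} {s : (ZMod M)ˣ} {X Y : Fam M M} (hX : X ∈ algFam M)
    (hfg : ∀ x, IsAlgebraic ℚ x → g x = f x) (h : IsConj f s X Y) : IsConj g s X Y := fun v => by
  rw [h v]
  ext n
  rw [coeffMap_coeff, coeffMap_coeff, hfg _ (mem_algFam.1 hX v n)]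

theorem IsConj.mem_algFam {f : ℂ →+* ℂ} {s : (ZMod M)ˣ} {X Y : Fam M M} (hX : X ∈ algFam M)
    (h : IsConj f s X Y) : Y ∈ algFam M :=
  Fermat.Agent.DS.G1.mem_algFam.2 fun v n => by
    rw [← twist_one v, ← mul_inv_cancel s, twist_mul, h, coeffMap_coeff]
    exact (Fermat.Agent.DS.G1.mem_algFam.1 hX _ n).algHom f.toRatAlgHom

theorem isConj_refl (X : Fam M M) : IsConj (RingHom.id ℂ) 1 X X := fun v => by
  rw [twist_one, coeffMap_id]

theorem IsConj.famScal {f : ℂ →+* ℂ} {s : (ZMod M)ˣ} {X Y : Fam M M} (u : (ZMod M)ˣ)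
    (h : IsConj f s X Y) : IsConj f s (famScal u X) (famScal u Y) := fun v => by
  rw [famExp_famScal, famExp_famScal, ← twist_scal, h]

variable {l : ℕ} [hl : Fact l.Prime]

omit [NeZero M] in
theorem sub_one_nsmul (χ : parHom M (ZMod l)) : (l - 1) • χ = -χ := by
  have h : l • χ = 0 := Subtype.ext (AddMonoidHom.ext fun x => by
    rw [AddSubmonoidClass.coe_nsmul, AddMonoidHom.nsmul_apply, nsmul_eq_mul, ZMod.natCast_self,
      zero_mul]
    rfl)
  rw [← add_eq_zero_iff_eq_neg, ← succ_nsmul, Nat.sub_add_cancel hl.out.one_le, h]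

variable [NeZero l]

omit hl [NeZero l] in
theorem three_le_level (hl5 : 5 ≤ l) (hlM : l ∣ M) : 3 ≤ M := by
  have := Nat.le_of_dvd (NeZero.pos M) hlM
  omega

/-- Conjugates of families of the same class have the same class. -/
theorem class_conj_eq {f : ℂ →+* ℂ} {s : (ZMod M)ˣ} (hs : ActsBy f s) {X X' Y Y' : Fam M M}
    {χ ψ ψ' : parHom M (ZMod l)} (hX : HasClass l X χ) (hX' : HasClass l X' χ)
    (hY : IsConj f s X Y) (hY' : IsConj f s X' Y') (hψ : HasClass l Y ψ)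
    (hψ' : HasClass l Y' ψ') : ψ = ψ' := by
  obtain ⟨G, hG0, hG⟩ := hX.exists_pow_of_eq hX'
  obtain ⟨H, hH, -⟩ := exists_isConj (l := l) f s hs G
  have e : Y * Y' ^ (l - 1) = H ^ l :=
    isConj_unique f s (hY.mul (hY'.pow (l - 1))) (hG ▸ hH.pow l)
  have h := hψ.mul (hψ'.pow (l - 1))
  rw [e, sub_one_nsmul] at h
  exact sub_eq_zero.1 (by rw [sub_eq_add_neg]; exact h.unique (hasClass_pow_self (hH.ne_zero hG0)))

theorem exists_rep (hl5 : 5 ≤ l) (hlM : l ∣ M) (χ : parHom M (ZMod l)) :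
    ∃ X : Fam M M, HasClass l X χ ∧ X ∈ algFam M := by
  have h3 := three_le_level hl5 hlM
  refine exists_algebraic_rep hl5 h3 (fun f hf X hX => ?_) χ
  obtain ⟨Y, hY, hN⟩ := exists_isConj (l := l) f 1
    (actsBy_id (by omega) (hf _ isAlgebraic_zetaN)) X
  exact ⟨Y, hN hX, hY⟩

theorem exists_galClass (hl5 : 5 ≤ l) (hlM : l ∣ M) (σ : GalQ) (χ : parHom M (ZMod l)) :
    ∃ ψ : parHom M (ZMod l), ∀ (X Y : Fam M M) (s : (ZMod M)ˣ), X ∈ algFam M → HasClass l X χ →
      ActsBy (extC σ) s → IsConj (extC σ) s X Y → HasClass l Y ψ := by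
  obtain ⟨X₀, hX₀, -⟩ := exists_rep hl5 hlM χ
  obtain ⟨s₀, hs₀⟩ := exists_actsExponent (M := M) (extC σ)
  obtain ⟨Y₀, hY₀, hN₀⟩ := exists_isConj (l := l) (extC σ) s₀ hs₀ X₀
  obtain ⟨ψ, hψ⟩ := exists_hasClass hl5 (hN₀ (hX₀.nice hl5))
  refine ⟨ψ, fun X Y s _ hX hs hY => ?_⟩
  obtain rfl := actsBy_unique rfl hs hs₀
  obtain ⟨Y', hY', hN⟩ := exists_isConj (l := l) (extC σ) s hs X
  obtain ⟨ψ', hψ'⟩ := exists_hasClass hl5 (hN (hX.nice hl5))
  rw [isConj_unique _ _ hY hY']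
  exact class_conj_eq hs hX hX₀ hY' hY₀ hψ' hψ ▸ hψ'

variable (hl5 : 5 ≤ l) (hlM : l ∣ M)

/-- The action of `σ` on classes. -/
def galClass (σ : GalQ) (χ : parHom M (ZMod l)) : parHom M (ZMod l) :=
  (exists_galClass hl5 hlM σ χ).choose

theorem hasClass_galClass {σ : GalQ} {χ : parHom M (ZMod l)} {X Y : Fam M M} {s : (ZMod M)ˣ}
    (hX : X ∈ algFam M) (hχ : HasClass l X χ) (hs : ActsBy (extC σ) s)
    (hY : IsConj (extC σ) s X Y) : HasClass l Y (galClass hl5 hlM σ χ) :=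
  (exists_galClass hl5 hlM σ χ).choose_spec X Y s hX hχ hs hY

include hl5 hlM in
/-- A representative with its conjugate. -/
theorem exists_rep_conj (σ : GalQ) (χ : parHom M (ZMod l)) :
    ∃ (X Y : Fam M M) (s : (ZMod M)ˣ), HasClass l X χ ∧ X ∈ algFam M ∧ ActsBy (extC σ) s ∧
      IsConj (extC σ) s X Y ∧ Y ∈ algFam M ∧ HasClass l Y (galClass hl5 hlM σ χ) := by
  obtain ⟨X, hX, hXa⟩ := exists_rep hl5 hlM χ
  obtain ⟨s, hs⟩ := exists_actsExponent (M := M) (extC σ)
  obtain ⟨Y, hY, -⟩ := exists_isConj (l := l) (extC σ) s hs X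
  exact ⟨X, Y, s, hX, hXa, hs, hY, hY.mem_algFam hXa, hasClass_galClass hl5 hlM hXa hX hs hY⟩

theorem galClass_add (σ : GalQ) (χ χ' : parHom M (ZMod l)) :
    galClass hl5 hlM σ (χ + χ') = galClass hl5 hlM σ χ + galClass hl5 hlM σ χ' := by
  obtain ⟨X, Y, s, hX, hXa, hs, hY, -, hψ⟩ := exists_rep_conj hl5 hlM σ χ
  obtain ⟨X', Y', s', hX', hXa', hs', hY', -, hψ'⟩ := exists_rep_conj hl5 hlM σ χ'
  obtain rfl := actsBy_unique rfl hs hs'
  exact (hasClass_galClass hl5 hlM (mul_mem hXa hXa') (hX.mul hX') hs (hY.mul hY')).unique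
    (hψ.mul hψ')

theorem galClass_one (χ : parHom M (ZMod l)) : galClass hl5 hlM 1 χ = χ := by
  obtain ⟨X, hX, hXa⟩ := exists_rep hl5 hlM χ
  have h3 := three_le_level hl5 hlM
  exact (hasClass_galClass hl5 hlM hXa hX
    (actsBy_id (by omega) (extC_one isAlgebraic_zetaN))
    ((isConj_refl X).congr hXa fun x hx => extC_one hx)).unique hX

theorem galClass_mul (σ τ : GalQ) (χ : parHom M (ZMod l)) :
    galClass hl5 hlM (σ * τ) χ = galClass hl5 hlM σ (galClass hl5 hlM τ χ) := by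
  obtain ⟨X, Y, t, hX, hXa, ht, hY, hYa, hψ⟩ := exists_rep_conj hl5 hlM τ χ
  obtain ⟨s, hs⟩ := exists_actsExponent (M := M) (extC σ)
  obtain ⟨Z, hZ, -⟩ := exists_isConj (l := l) (extC σ) s hs Y
  have hst : ActsBy (extC (σ * τ)) (s * t) := by
    have h := hs.comp ht
    rw [ActsBy] at h ⊢
    rwa [extC_mul σ τ isAlgebraic_zetaN]
  exact (hasClass_galClass hl5 hlM hXa hX hst
    ((hY.comp hZ).congr hXa fun x hx => extC_mul σ τ hx)).unique
    (hasClass_galClass hl5 hlM hYa hψ hs hZ)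

/-- The representation on classes. -/
def galParHom : GalQ →* Module.End (ZMod l) (parHom M (ZMod l)) where
  toFun σ := (AddMonoidHom.mk' (galClass hl5 hlM σ) (galClass_add hl5 hlM σ)).toZModLinearMap l
  map_one' := LinearMap.ext fun χ => galClass_one hl5 hlM χ
  map_mul' σ τ := LinearMap.ext fun χ => galClass_mul hl5 hlM σ τ χ

theorem galParHom_apply (σ : GalQ) (χ : parHom M (ZMod l)) :
    galParHom hl5 hlM σ χ = galClass hl5 hlM σ χ := rfl

section Finite

/-- A family whose expansions only involve positive exponents vanishes. -/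
theorem fam_eq_zero_of_coeff {X : Fam M M} (h : ∀ v, ∀ n : ℤ, n < 1 → (famExp v X).coeff n = 0) :
    X = 0 := by
  let z : PrimVec 1 := base 1
  have hN : ∀ n : ℤ, n < 1 → (famExp z (famNorm (one_dvd M) X)).coeff n = 0 := by
    rw [famExp_famNorm]
    refine Finset.prod_induction_nonempty _ (fun s : LaurentSeries ℂ => ∀ n : ℤ, n < 1 → s.coeff n = 0)
      (fun s t hs ht n hn => ?_) (primFibre_nonempty z) (fun v _ => h v)
    rw [HahnSeries.coeff_mul]
    refine Finset.sum_eq_zero fun ij hij => ?_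
    have h3 : ij.1 + ij.2 = n := (Finset.mem_antidiagonal.mp hij).2.2
    by_cases h1 : ij.1 < 1
    · rw [hs _ h1, zero_mul]
    · rw [ht _ (by omega), mul_zero]
  obtain ⟨c, hc⟩ := levelOne_bounded_const _ z fun n hn => hN n (by omega)
  have hc0 : c = 0 := by simpa [hc, famExp_famConst] using hN 0 one_pos
  have h0 : famExp z (famNorm (one_dvd M) X) = 0 := by rw [hc, hc0, map_zero, map_zero]
  rw [famExp_famNorm, Finset.prod_eq_zero_iff] at h0
  obtain ⟨v, -, hv⟩ := h0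
  exact famExp_injective v (hv.trans (map_zero _).symm)

/-- The coefficients at non-positive exponents. -/
def polarCoeffs (X : Fam M M) : Set ℂ :=
  {c | c ≠ 0 ∧ ∃ v : PrimVec M, ∃ n : ℤ, n < 1 ∧ (famExp v X).coeff n = c}

theorem polarCoeffs_finite (X : Fam M M) : (polarCoeffs X).Finite := by
  refine ((Set.finite_iUnion fun v : PrimVec M =>
    ((Set.finite_Icc (famExp v X).order 0).image fun n => (famExp v X).coeff n))).subset ?_
  rintro c ⟨hc, v, n, hn, rfl⟩
  refine Set.mem_iUnion.2 ⟨v, n, ⟨?_, by omega⟩, rfl⟩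
  by_contra! h
  exact hc (HahnSeries.coeff_eq_zero_of_lt_order h)

theorem galParHom_finiteLevel : GaloisFactorsThroughFiniteLevel (galParHom hl5 hlM) := by
  choose X hX hXa using fun χ : parHom M (ZMod l) => exists_rep hl5 hlM χ
  let T : Set ℂ := insert (zetaN M) (⋃ χ, polarCoeffs (X χ))
  have hT : T.Finite := (Set.finite_iUnion fun χ => polarCoeffs_finite (X χ)).insert _
  let U : Set (AlgebraicClosure ℚ) := qbarC ⁻¹' T
  have : Finite U := (hT.preimage qbarC_injective.injOn).to_subtype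
  refine ⟨IntermediateField.adjoin ℚ U, IntermediateField.finiteDimensional_adjoin
    fun x _ => ((AlgebraicClosure.isAlgebraic ℚ).isAlgebraic x).isIntegral, fun σ hσ => LinearMap.ext fun χ => ?_⟩
  have hfix : ∀ c ∈ T, IsAlgebraic ℚ c → extC σ c = c := by
    intro c hc halg
    obtain ⟨y, rfl⟩ := exists_qbarC_eq halg
    rw [extC_qbarC, hσ y (IntermediateField.subset_adjoin ℚ U hc)]
  have h3 := three_le_level hl5 hlM
  have hs : ActsBy (extC σ) (1 : (ZMod M)ˣ) :=
    actsBy_id (by omega) (hfix _ (Set.mem_insert _ _) isAlgebraic_zetaN)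
  obtain ⟨Y, hY, -⟩ := exists_isConj (l := l) (extC σ) 1 hs (X χ)
  have e : Y = X χ := by
    refine sub_eq_zero.1 (fam_eq_zero_of_coeff fun v n hn => ?_)
    have hv := hY v
    rw [twist_one] at hv
    rw [map_sub, HahnSeries.coeff_sub, hv, coeffMap_coeff, sub_eq_zero]
    by_cases h0 : (famExp v (X χ)).coeff n = 0
    · rw [h0, map_zero]
    · exact hfix _ (Set.mem_insert_of_mem _ (Set.mem_iUnion.2 ⟨χ, h0, v, n, hn, rfl⟩))
        (mem_algFam.1 (hXa χ) v n)
  rw [galParHom_apply, Module.End.one_apply]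
  exact (hasClass_galClass hl5 hlM (hXa χ) (hX χ) hs hY).unique (e ▸ hX χ)

end Finite

end Fermat.Agent.DS.G1
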