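import Fermat.Agent.DS.Defs
import Fermat.Agent.DS.AutC
import Fermat.Agent.DS.G1.Classes.Defs
import Mathlib.FieldTheory.IsAlgClosed.AlgebraicClosure

/-!
# The algebraic closure of `ℚ` inside `ℂ`
-/

set_option autoImplicit false

noncomputable section

namespace Fermat.Agent.DS.G1

open Fermat.Agent.DS

-- Use the `ℚ`-algebra structure of an intermediate field on `Kb`.
local instance (priority := 10000) : Algebra ℚ Kb := Kb.algebra'

/-- The identification of the algebraic closure of `ℚ` with the algebraic numbers. -/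
def qbarEquiv : AlgebraicClosure ℚ ≃ₐ[ℚ] Kb :=
  haveI : IsAlgClosure ℚ (AlgebraicClosure ℚ) := ⟨inferInstance, AlgebraicClosure.isAlgebraic ℚ⟩
  IsAlgClosure.equiv ℚ (AlgebraicClosure ℚ) Kb

/-- The embedding of the algebraic closure of `ℚ`. -/
def qbarC : AlgebraicClosure ℚ →+* ℂ := Kb.toSubfield.subtype.comp qbarEquiv.toRingEquiv.toRingHom

theorem qbarC_injective : Function.Injective qbarC := qbarC.injective

theorem isAlgebraic_qbarC (x : AlgebraicClosure ℚ) : IsAlgebraic ℚ (qbarC x) :=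
  isAlgebraic_iff_mem_Kb.2 (qbarEquiv x).2

theorem qbarC_mem (x : AlgebraicClosure ℚ) : qbarC x ∈ Kb.toSubfield.toSubring :=
  (qbarEquiv x).2

theorem exists_qbarC_eq {x : ℂ} (hx : IsAlgebraic ℚ x) : ∃ y, qbarC y = x :=
  ⟨qbarEquiv.symm ⟨x, isAlgebraic_iff_mem_Kb.1 hx⟩,
    congrArg Subtype.val (qbarEquiv.apply_symm_apply ⟨x, isAlgebraic_iff_mem_Kb.1 hx⟩)⟩

theorem exists_extC (σ : GalQ) : ∃ f : ℂ →+* ℂ, ∀ x, f (qbarC x) = qbarC (σ x) := by
  obtain ⟨f, hf⟩ := exists_extend ((qbarEquiv.symm.trans σ).trans qbarEquiv)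
  exact ⟨f, fun x => (hf (qbarEquiv x)).trans (congrArg Subtype.val (by simp))⟩

/-- An extension of `σ` to `ℂ`. -/
def extC (σ : GalQ) : ℂ →+* ℂ := (exists_extC σ).choose

theorem extC_qbarC (σ : GalQ) (x : AlgebraicClosure ℚ) : extC σ (qbarC x) = qbarC (σ x) :=
  (exists_extC σ).choose_spec x

theorem extC_one {x : ℂ} (hx : IsAlgebraic ℚ x) : extC 1 x = x := by
  obtain ⟨y, rfl⟩ := exists_qbarC_eq hx
  rw [extC_qbarC, AlgEquiv.one_apply]

theorem extC_mul (σ τ : GalQ) {x : ℂ} (hx : IsAlgebraic ℚ x) :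
    extC (σ * τ) x = extC σ (extC τ x) := by
  obtain ⟨y, rfl⟩ := exists_qbarC_eq hx
  rw [extC_qbarC, extC_qbarC, extC_qbarC, AlgEquiv.mul_apply]

variable {M : ℕ} [NeZero M]

theorem zetaN_primitive : IsPrimitiveRoot (zetaN M) M :=
  Complex.isPrimitiveRoot_exp M (NeZero.ne M)

theorem isAlgebraic_of_pow_eq_one {x : ℂ} {n : ℕ} (hn : n ≠ 0) (h : x ^ n = 1) :
    IsAlgebraic ℚ x :=
  ((IsIntegral.of_pow (Nat.pos_of_ne_zero hn) (by rw [h]; exact isIntegral_one) :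
    IsIntegral ℚ x)).isAlgebraic

theorem isAlgebraic_zetaN : IsAlgebraic ℚ (zetaN M) :=
  isAlgebraic_of_pow_eq_one (NeZero.ne M) zetaN_primitive.pow_eq_one

theorem exists_actsExponent (f : ℂ →+* ℂ) : ∃ s : (ZMod M)ˣ, ActsBy f s := by
  obtain ⟨i, hi, hco, he⟩ := (zetaN_primitive (M := M)).isPrimitiveRoot_iff.1
    ((zetaN_primitive (M := M)).map_of_injective f.injective)
  refine ⟨ZMod.unitOfCoprime i hco, ?_⟩
  rw [ActsBy, ← he, ZMod.coe_unitOfCoprime, ZMod.val_natCast, Nat.mod_eq_of_lt hi]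

theorem actsBy_unique {f g : ℂ →+* ℂ} {s t : (ZMod M)ˣ}
    (h : f (zetaN M) = g (zetaN M)) (hs : ActsBy f s) (ht : ActsBy g t) : s = t :=
  Units.ext (ZMod.val_injective M ((zetaN_primitive (M := M)).pow_inj (ZMod.val_lt _)
    (ZMod.val_lt _) (hs.symm.trans (h.trans ht))))

theorem ActsBy.comp {f g : ℂ →+* ℂ} {s t : (ZMod M)ˣ} (hs : ActsBy f s) (ht : ActsBy g t) :
    ActsBy (f.comp g) (s * t) := by
  rw [ActsBy, RingHom.comp_apply, ht, map_pow, hs, ← pow_mul]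
  refine pow_eq_pow_of_modEq ?_ (zetaN_primitive (M := M)).pow_eq_one
  rw [← ZMod.natCast_eq_natCast_iff, Units.val_mul]
  simp

omit [NeZero M] in
theorem actsBy_id (h1 : 1 < M) {f : ℂ →+* ℂ} (h : f (zetaN M) = zetaN M) :
    ActsBy f (1 : (ZMod M)ˣ) := by
  have := Fact.mk h1
  rw [ActsBy, Units.val_one, ZMod.val_one, pow_one, h]

end Fermat.Agent.DS.G1
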