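import Fermat.Agent.DS.G1.Classes.Hecke
import Mathlib.RingTheory.RootsOfUnity.Complex

/-!
# Expansions of the Hecke transform of a family
-/

set_option autoImplicit false

noncomputable section

open UpperHalfPlane Function
open scoped MatrixGroups

namespace Fermat.Agent.DS.G1

open Fermat.Agent.Igusa ModularCurve

local notation "𝕢" => Periodic.qParam

/-- The roots of unity of order `p` form a finite type. -/
@[reducible] def muFintype (p : ℕ) [NeZero p] : Fintype (rootsOfUnity p ℂ) := Fintype.ofFinite _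

attribute [local instance] muFintype

variable {M : ℕ} [NeZero M] (p : ℕ) [hp : Fact p.Prime] [NeZero p] (hpM : ¬ p ∣ M)

/-- The formula defining a Hecke transform. -/
def IsHeckeFam (X Z : Fam M M) : Prop :=
  ∀ (v : PrimVec M) (τ : ℍ), Z.1 v τ =
    (∏ j : Fin p, X.1 (heckeUpper (primeUnit p hpM) (j : ℕ) v)
      (ofComplex (((τ : ℂ) + ((j : ℕ) : ℂ)) / (p : ℂ)))) *
      X.1 (twist (primeUnit p hpM) v) (ofComplex ((p : ℂ) * (τ : ℂ)))

theorem hasExp_finsetProd {h : ℕ} {ι : Type*} (O : Finset ι) {f : ι → ℍ → ℂ}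
    {s : ι → LaurentSeries ℂ} (hs : ∀ i ∈ O, HasExp h (f i) (s i)) :
    HasExp h (∏ i ∈ O, f i) (∏ i ∈ O, s i) := by
  classical
  induction O using Finset.induction with
  | empty => simpa using hasExp_one
  | insert a O ha ih =>
    rw [Finset.prod_insert ha, Finset.prod_insert ha]
    exact (hs a (Finset.mem_insert_self a O)).mul
      (ih fun i hi => hs i (Finset.mem_insert_of_mem hi))

/-- The expansion of a Hecke transform, in `exp (2πiτ/pM)`. -/
theorem qExpand_famExp_hecke {X Z : Fam M M} (hZ : IsHeckeFam p hpM X Z) (v : PrimVec M) :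
    qExpand ℂ p (famExp v Z) =
      (∏ z : rootsOfUnity p ℂ, qScale (z : ℂˣ)
        (famExp (heckeUpper (primeUnit p hpM) 0 v) X)) *
        qExpand ℂ p (qExpand ℂ p (famExp (twist (primeUnit p hpM) v) X)) := by
  have hp0 : p ≠ 0 := hp.out.ne_zero
  have : NeZero (p * M) := ⟨mul_ne_zero hp0 (NeZero.ne M)⟩
  set u := primeUnit p hpM with hu
  set w := heckeUpper u 0 v with hw
  let n : ℕ → ℕ := fun j => (-(j : ZMod M) * ((u⁻¹ : (ZMod M)ˣ) : ZMod M)).val
  have hMJ : ∀ j : ℕ, M ∣ j + p * n j := fun j => by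
    rw [← ZMod.natCast_eq_zero_iff]
    have hu' : ((u : ZMod M)) * ((u⁻¹ : (ZMod M)ˣ) : ZMod M) = 1 := Units.mul_inv u
    rw [Nat.cast_add, Nat.cast_mul, ZMod.natCast_zmod_val, ← coe_primeUnit p hpM, ← hu]
    linear_combination (-(j : ZMod M)) * hu'
  choose i hi using hMJ
  set ζ : ℂ := Complex.exp (2 * Real.pi * Complex.I / p) with hζ
  have hζp : IsPrimitiveRoot ζ p := Complex.isPrimitiveRoot_exp p hp0
  let z : Fin p → rootsOfUnity p ℂ := fun j =>
    ⟨Units.mk0 (ζ ^ i j) (pow_ne_zero _ (Complex.exp_ne_zero _)), by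
      rw [mem_rootsOfUnity]
      ext
      rw [Units.val_pow_eq_pow_val, Units.val_mk0, ← pow_mul, mul_comm, pow_mul, hζp.pow_eq_one,
        one_pow, Units.val_one]⟩
  have hz : Bijective z := by
    refine (Fintype.bijective_iff_injective_and_card z).2 ⟨fun j j' h => ?_, ?_⟩
    · have h1 : ζ ^ i j = ζ ^ i j' := congrArg (fun x : rootsOfUnity p ℂ => ((x : ℂˣ) : ℂ)) h
      have h1' : i j ≡ i j' [MOD p] := hζp.pow_inj (Nat.mod_lt _ hp.out.pos)
        (Nat.mod_lt _ hp.out.pos) (by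
          rw [← pow_eq_pow_mod (i j) hζp.pow_eq_one, ← pow_eq_pow_mod (i j') hζp.pow_eq_one, h1])
      have h2 : ((j : ℕ) : ZMod p) = ((j' : ℕ) : ZMod p) := by
        have e : ∀ k : ℕ, ((k : ℕ) : ZMod p) = (M : ZMod p) * (i k : ZMod p) := fun k => by
          rw [← Nat.cast_mul, ← hi, Nat.cast_add, Nat.cast_mul, ZMod.natCast_self, zero_mul,
            add_zero]
        rw [e (j : ℕ), e (j' : ℕ), (ZMod.natCast_eq_natCast_iff _ _ _).2 h1']
      exact Fin.ext (Nat.ModEq.eq_of_lt_of_lt ((ZMod.natCast_eq_natCast_iff _ _ _).1 h2) j.2 j'.2)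
    · rw [Fintype.card_fin, ← Nat.card_eq_fintype_card, Complex.card_rootsOfUnity]
  have key : ∀ j : Fin p, HasExp (p * M)
      (fun τ => X.1 (heckeUpper u j v) (ofComplex (((τ : ℂ) + ((j : ℕ) : ℂ)) / (p : ℂ))))
      (qScale (z j : ℂˣ) (famExp w X)) := fun j => by
    have hc := (hasExp_famExp X w).comp (h' := p * M)
      (fun τ => ModularForm.heckeMatrix p ((j : ℕ) + p * n j) • τ) (z j : ℂˣ) 1 fun τ => by
        rw [ModularForm.coe_heckeMatrix_smul hp0, hi, pow_one]
        show 𝕢 (M : ℝ) _ = ζ ^ i j * 𝕢 ((p * M : ℕ) : ℝ) τ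
        rw [hζ, Periodic.qParam, Periodic.qParam, ← Complex.exp_nat_mul, ← Complex.exp_add]
        congr 1
        have h1 : (p : ℂ) ≠ 0 := Nat.cast_ne_zero.2 hp0
        have h2 : (M : ℂ) ≠ 0 := Nat.cast_ne_zero.2 (NeZero.ne M)
        push_cast
        field_simp
        ring
    rw [qExpand_one_apply] at hc
    convert hc using 1
    funext τ
    rw [comp_apply, ← ModularForm.coe_heckeMatrix_smul hp0, ofComplex_apply]
    have e : ModularForm.heckeMatrix p ((j : ℕ) + p * n j) • τ =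
        (ModularGroup.T ^ ((n j : ℕ) : ℤ)) • (ModularForm.heckeMatrix p j • τ) := by
      rw [T_zpow_smul_vadd]
      refine UpperHalfPlane.ext ?_
      rw [coe_vadd, ModularForm.coe_heckeMatrix_smul hp0, ModularForm.coe_heckeMatrix_smul hp0]
      have h1 : (p : ℂ) ≠ 0 := Nat.cast_ne_zero.2 hp0
      push_cast
      field_simp
      ring
    rw [e, ← fam_rowMul]
    refine congrArg (fun r => X.1 r _) (Subtype.ext ?_)
    rw [rowMul_T_zpow, hw, coe_heckeUpper, coe_heckeUpper]
    funext c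
    fin_cases c
    · simp
    · have hu' : ((u : ZMod M)) * ((u⁻¹ : (ZMod M)ˣ) : ZMod M) = 1 := Units.mul_inv u
      simp only [n, Int.cast_natCast, ZMod.natCast_zmod_val, Nat.cast_zero, zero_mul, sub_zero,
        Fin.mk_one, Matrix.cons_val_one, Matrix.cons_val_zero]
      linear_combination ((j : ℕ) : ZMod M) * v.1 0 * hu'
  have hdiag : HasExp (p * M) (fun τ => X.1 (twist u v) (ofComplex ((p : ℂ) * (τ : ℂ))))
      (qExpand ℂ p (qExpand ℂ p (famExp (twist u v) X))) := by
    have : NeZero (p * p) := ⟨mul_ne_zero hp0 hp0⟩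
    have hc := (hasExp_famExp X (twist u v)).comp (h' := p * M)
      (fun τ => ModularForm.heckeDiagMatrix p • τ) 1 (p * p) fun τ => by
        rw [ModularForm.coe_heckeDiagMatrix_smul hp0, Units.val_one, one_mul, Periodic.qParam,
          Periodic.qParam, ← Complex.exp_nat_mul]
        congr 1
        have h1 : (p : ℂ) ≠ 0 := Nat.cast_ne_zero.2 hp0
        have h2 : (M : ℂ) ≠ 0 := Nat.cast_ne_zero.2 (NeZero.ne M)
        push_cast
        field_simp
    rw [qScale_one, RingHom.id_apply, ← qExpand_qExpand] at hc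
    convert hc using 1
    funext τ
    rw [comp_apply, ← ModularForm.coe_heckeDiagMatrix_smul hp0, ofComplex_apply]
  have hlhs : HasExp (p * M) (Z.1 v) (qExpand ℂ p (famExp v Z)) := by
    have hc := (hasExp_famExp Z v).comp (h' := p * M) (fun τ => τ) 1 p fun τ => by
      rw [Units.val_one, one_mul]
      have := qParam_level_up (a := M) (b := p * M) (mul_ne_zero hp0 (NeZero.ne M)) (NeZero.ne M)
        (dvd_mul_left M p) τ
      rwa [Nat.mul_div_cancel _ (NeZero.pos M)] at this
    rw [qScale_one, RingHom.id_apply] at hc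
    exact hc
  refine hlhs.unique (NeZero.pos (p * M)) ?_
  rw [← hz.prod_comp fun x : rootsOfUnity p ℂ => qScale (x : ℂˣ) (famExp w X)]
  convert (hasExp_finsetProd Finset.univ fun j _ => key j).mul hdiag using 1
  funext τ
  rw [hZ v τ, Pi.mul_apply, Finset.prod_apply]

theorem isHeckeFam_mem {X Z : Fam M M} (hZ : IsHeckeFam p hpM X Z) {S : Subring ℂ}
    (hS : ∀ x : ℂ, x ^ p = 1 → x ∈ S) (hX : X ∈ intFam M M S) : Z ∈ intFam M M S := by
  refine mem_intFam.2 fun v n => ?_
  have hXs : ∀ w, famExp w X ∈ serIn S := fun w => mem_serIn.2 (mem_intFam.1 hX w)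
  have hq : ∀ {s : LaurentSeries ℂ}, s ∈ serIn S → qExpand ℂ p s ∈ serIn S := fun {s} hs =>
    mem_serIn.2 fun k => by
      by_cases hk : (p : ℤ) ∣ k
      · obtain ⟨m, rfl⟩ := hk
        rw [qExpand_coeff_mul]
        exact mem_serIn.1 hs m
      · rw [qExpand_coeff_of_not_dvd _ _ hk]
        exact zero_mem _
  have h : qExpand ℂ p (famExp v Z) ∈ serIn S := by
    rw [qExpand_famExp_hecke p hpM hZ v]
    refine mul_mem (prod_mem fun z _ => mem_serIn.2 fun k => ?_) (hq (hq (hXs _)))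
    rw [qScale_coeff]
    refine mul_mem (hS _ ?_) (mem_serIn.1 (hXs _) k)
    have h1 : ((z : ℂˣ) ^ k) ^ p = 1 := by
      rw [← zpow_natCast, ← zpow_mul, mul_comm, zpow_mul, zpow_natCast,
        (mem_rootsOfUnity p _).1 z.2, one_zpow]
    rw [← Units.val_pow_eq_pow_val, h1, Units.val_one]
  simpa [qExpand_coeff_mul] using mem_serIn.1 h ((p : ℤ) * n)

end Fermat.Agent.DS.G1
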