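import Fermat.Agent.DS.G1.Gal.Embed
import Fermat.Agent.DS.G1.Core.Place
import Fermat.Agent.Galois.Cyclotomic
import Fermat.Agent.RED.Specialization.FrobSeries
import Fermat.Agent.Igusa.Series

/-!
# The place of `ℂ` attached to a place of the algebraic closure of `ℚ`
-/

set_option autoImplicit false

noncomputable section

namespace Fermat.Agent.DS.G1

open Fermat.Agent.DS ModularCurve
open Fermat.Agent.Igusa (qScale qScale_coeff)
open IsLocalRing (residue ResidueField)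

/-- The inverse of the coefficientwise inclusion. -/
def liftSer (S : Subring ℂ) : serIn S →+* LaurentSeries S :=
  (RingEquiv.ofBijective (coeffMap S.subtype).rangeRestrict
    ⟨fun _ _ h => Fermat.Agent.Igusa.coeffMap_injective Subtype.coe_injective
      (congrArg Subtype.val h), (coeffMap S.subtype).rangeRestrict_surjective⟩).symm.toRingHom

theorem coe_coeff_liftSer {S : Subring ℂ} (s : serIn S) (n : ℤ) :
    (((liftSer S s).coeff n : S) : ℂ) = (s : LaurentSeries ℂ).coeff n := by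
  have h : coeffMap S.subtype (liftSer S s) = (s : LaurentSeries ℂ) :=
    congrArg Subtype.val (RingEquiv.apply_symm_apply (RingEquiv.ofBijective
      (coeffMap S.subtype).rangeRestrict _) s)
  rw [← h, coeffMap_coeff]
  rfl

theorem qExpand_mem_serIn {S : Subring ℂ} {s : LaurentSeries ℂ} (r : ℕ) [NeZero r]
    (hs : s ∈ serIn S) : qExpand ℂ r s ∈ serIn S :=
  mem_serIn.2 fun k => by
    by_cases hk : (r : ℤ) ∣ k
    · obtain ⟨m, rfl⟩ := hk
      rw [qExpand_coeff_mul]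
      exact mem_serIn.1 hs m
    · rw [qExpand_coeff_of_not_dvd _ _ hk]
      exact zero_mem _

theorem serIn_of_qExpand {S : Subring ℂ} {s : LaurentSeries ℂ} (r : ℕ) [NeZero r]
    (hs : qExpand ℂ r s ∈ serIn S) : s ∈ serIn S :=
  mem_serIn.2 fun k => by simpa [qExpand_coeff_mul] using mem_serIn.1 hs ((r : ℤ) * k)

variable {p : ℕ} [hp : Fact p.Prime] {A : ValuationSubring (AlgebraicClosure ℚ)}
  (hA : A.LiesOverPrime p)

/-- The place of `ℂ` attached to `A`. -/
def placeC : PlaceRing p where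
  A := A.toSubring.map qbarC
  algebraic := by
    rintro _ ⟨y, -, rfl⟩
    exact isAlgebraic_qbarC y
  total x hx := by
    obtain ⟨y, rfl⟩ := exists_qbarC_eq hx
    rcases A.mem_or_inv_mem y with h | h
    · exact Or.inl ⟨y, h, rfl⟩
    · exact Or.inr ⟨y⁻¹, h, map_inv₀ qbarC y⟩
  not_unit := by
    rintro ⟨y, hy, he⟩
    rw [show (p : ℂ)⁻¹ = qbarC (p : AlgebraicClosure ℚ)⁻¹ by rw [map_inv₀, map_natCast]] at he
    rcases A.mem_nonunits_iff_or.1 hA with h | h
    · exact hp.out.ne_zero (by exact_mod_cast h)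
    · exact h (qbarC_injective he ▸ hy)

/-- Reduction to the residue field. -/
def placeRed : (placeC hA).A →+* ResidueField A :=
  (residue A).comp (A.toSubring.equivMapOfInjective qbarC qbarC_injective).symm.toRingHom

theorem placeRed_qbarC {y : AlgebraicClosure ℚ} (hy : y ∈ A) (h : qbarC y ∈ (placeC hA).A) :
    placeRed hA ⟨qbarC y, h⟩ = residue A ⟨y, hy⟩ :=
  congrArg (residue A) ((RingEquiv.symm_apply_eq _).2 (Subtype.ext rfl))

theorem exists_mem_placeC {x : ℂ} (hx : x ∈ (placeC hA).A) :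
    ∃ y, ∃ _ : y ∈ A, qbarC y = x := by
  obtain ⟨y, hy, e⟩ := hx
  exact ⟨y, hy, e⟩

theorem placeRed_eq_zero (x : (placeC hA).A) :
    placeRed hA x = 0 ↔ (x : ℂ) ∈ (placeC hA).maxIdeal := by
  obtain ⟨x, hx⟩ := x
  obtain ⟨y, hy, rfl⟩ := exists_mem_placeC hA hx
  rw [placeRed_qbarC hA hy, IsLocalRing.residue_eq_zero_iff, ← A.coe_mem_nonunits_iff,
    A.mem_nonunits_iff_or]
  refine ⟨fun h => ⟨hx, h.imp (fun e => by rw [← map_zero qbarC]; exact congrArg qbarC e)
    fun h' h'' => h' ?_⟩, fun h => h.2.imp (fun e => qbarC_injective (e.trans (map_zero _).symm))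
      fun h' h'' => h' ⟨y⁻¹, h'', map_inv₀ qbarC y⟩⟩
  obtain ⟨z, hz, e⟩ := exists_mem_placeC hA (show (qbarC y)⁻¹ ∈ (placeC hA).A from h'')
  rw [← map_inv₀] at e
  exact qbarC_injective e ▸ hz

/-- Reduction of series. -/
def redSer : serIn (placeC hA).A →+* LaurentSeries (ResidueField A) :=
  (coeffMap (placeRed hA)).comp (liftSer _)

theorem coeff_redSer (s : serIn (placeC hA).A) (n : ℤ) :
    (redSer hA s).coeff n =
      placeRed hA ⟨(s : LaurentSeries ℂ).coeff n, mem_serIn.1 s.2 n⟩ := by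
  rw [redSer, RingHom.comp_apply, coeffMap_coeff]
  exact congrArg _ (Subtype.ext (coe_coeff_liftSer s n))

theorem serCongr_of_redSer {s t : LaurentSeries ℂ} (hs : s ∈ serIn (placeC hA).A)
    (ht : t ∈ serIn (placeC hA).A) (h : redSer hA ⟨s, hs⟩ = redSer hA ⟨t, ht⟩) :
    (placeC hA).SerCongr s t := fun n => by
  have h1 := congrArg (fun x : LaurentSeries (ResidueField A) => x.coeff n) h
  simp only [coeff_redSer] at h1
  rw [← sub_eq_zero, ← map_sub, placeRed_eq_zero] at h1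
  exact h1

theorem hasUnitCoeff_iff {s : LaurentSeries ℂ} (hs : s ∈ serIn (placeC hA).A) :
    (placeC hA).HasUnitCoeff s ↔ redSer hA ⟨s, hs⟩ ≠ 0 := by
  constructor
  · rintro ⟨n, hn⟩ h
    refine hn ((placeRed_eq_zero hA ⟨s.coeff n, mem_serIn.1 hs n⟩).1 ?_)
    rw [← coeff_redSer hA ⟨s, hs⟩ n, h, HahnSeries.coeff_zero]
  · intro h
    by_contra! hn
    refine h (HahnSeries.ext (funext fun n => ?_))
    rw [coeff_redSer, HahnSeries.coeff_zero, (placeRed_eq_zero hA _).2]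
    exact not_not.1 fun h' => hn ⟨n, h'⟩

theorem redSer_qExpand (r : ℕ) [NeZero r] {s : LaurentSeries ℂ} (hs : s ∈ serIn (placeC hA).A) :
    redSer hA ⟨qExpand ℂ r s, qExpand_mem_serIn r hs⟩ = qExpand _ r (redSer hA ⟨s, hs⟩) := by
  ext n
  rw [coeff_redSer]
  by_cases hn : (r : ℤ) ∣ n
  · obtain ⟨m, rfl⟩ := hn
    conv_rhs => rw [qExpand_coeff_mul, coeff_redSer]
    exact congrArg _ (Subtype.ext (qExpand_coeff_mul r s m))
  · conv_rhs => rw [qExpand_coeff_of_not_dvd _ _ hn, ← map_zero (placeRed hA)]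
    exact congrArg _ (Subtype.ext (qExpand_coeff_of_not_dvd _ s hn))

include hA in
theorem charP_place : CharP (ResidueField A) p :=
  Fermat.Agent.Galois.place_charP_residueField hA hp.out

omit hp in
theorem mem_placeC_of_pow_eq_one {x : ℂ} {m : ℕ} [Fact p.Prime] (hm : m ≠ 0) (h : x ^ m = 1) :
    x ∈ (placeC hA).A := by
  obtain ⟨y, rfl⟩ := exists_qbarC_eq (isAlgebraic_of_pow_eq_one hm h)
  exact ⟨y, Fermat.Agent.Galois.rootOfUnity_mem_place A hm
    (qbarC_injective (by rw [map_pow, h, map_one])), rfl⟩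

/-- Scaling by a root of unity of order `p` is invisible after reduction. -/
theorem redSer_qScale {s : LaurentSeries ℂ} (hs : s ∈ serIn (placeC hA).A) {z : ℂˣ}
    (hz : z ^ p = 1) :
    ∃ h : qScale z s ∈ serIn (placeC hA).A,
      redSer hA ⟨qScale z s, h⟩ = redSer hA ⟨s, hs⟩ := by
  have hzn : ∀ n : ℤ, (((z ^ n : ℂˣ) : ℂ)) ^ p = 1 := fun n => by
    rw [← Units.val_pow_eq_pow_val, ← zpow_natCast, ← zpow_mul, mul_comm, zpow_mul, zpow_natCast,
      hz, one_zpow, Units.val_one]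
  have hmem := fun n => mem_placeC_of_pow_eq_one hA hp.out.ne_zero (hzn n)
  have h : qScale z s ∈ serIn (placeC hA).A := mem_serIn.2 fun n => by
    rw [qScale_coeff]
    exact mul_mem (hmem n) (mem_serIn.1 hs n)
  refine ⟨h, HahnSeries.ext (funext fun n => ?_)⟩
  rw [coeff_redSer, coeff_redSer]
  have h1 : placeRed hA ⟨_, hmem n⟩ = 1 := by
    have := charP_place hA
    apply frobenius_inj (ResidueField A) p
    rw [frobenius_def, map_one, ← map_pow, ← map_one (placeRed hA)]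
    exact congrArg _ (Subtype.ext (hzn n))
  calc placeRed hA ⟨(qScale z s).coeff n, _⟩
      = placeRed hA (⟨_, hmem n⟩ * ⟨s.coeff n, mem_serIn.1 hs n⟩) :=
        congrArg _ (Subtype.ext (qScale_coeff z s n))
    _ = _ := by rw [map_mul, h1, one_mul]

theorem extC_mem_placeC {σ : GalQ} (hσ : σ ∈ A.decompositionSubgroup ℚ) {x : ℂ}
    (hx : x ∈ (placeC hA).A) : extC σ x ∈ (placeC hA).A := by
  obtain ⟨y, hy, rfl⟩ := exists_mem_placeC hA hx
  exact ⟨σ y, Fermat.Agent.Galois.decomposition_apply_mem hσ hy, (extC_qbarC σ y).symm⟩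

theorem placeRed_extC_frob {σ : GalQ} (hσ : A.IsFrobeniusAt σ p) {x : ℂ}
    (hx : x ∈ (placeC hA).A) (h : extC σ x ∈ (placeC hA).A) :
    placeRed hA ⟨extC σ x, h⟩ = placeRed hA ⟨x, hx⟩ ^ p := by
  obtain ⟨y, hy, rfl⟩ := exists_mem_placeC hA hx
  have hσy := Fermat.Agent.Galois.decomposition_apply_mem hσ.mem_decompositionSubgroup hy
  rw [placeRed_qbarC hA hy, ← map_pow]
  refine ((congrArg (placeRed hA) (Subtype.ext (extC_qbarC σ y) :
    (⟨_, h⟩ : (placeC hA).A) = ⟨qbarC (σ y), ⟨σ y, hσy, rfl⟩⟩)).trans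
      (placeRed_qbarC hA hσy _)).trans (Fermat.Agent.Galois.residue_eq_residue_iff.2 ?_)
  exact Fermat.Agent.Galois.isFrobeniusAt_sub_mem_nonunits hσ hy

theorem placeRed_extC_inertia {σ : GalQ} (hσ : σ ∈ A.inertiaSubgroupIn ℚ) {x : ℂ}
    (hx : x ∈ (placeC hA).A) (h : extC σ x ∈ (placeC hA).A) :
    placeRed hA ⟨extC σ x, h⟩ = placeRed hA ⟨x, hx⟩ := by
  obtain ⟨y, hy, rfl⟩ := exists_mem_placeC hA hx
  have hσy := Fermat.Agent.Galois.decomposition_apply_mem
    (Fermat.Agent.Galois.inertia_le_decomposition A hσ) hy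
  rw [placeRed_qbarC hA hy]
  refine ((congrArg (placeRed hA) (Subtype.ext (extC_qbarC σ y) :
    (⟨_, h⟩ : (placeC hA).A) = ⟨qbarC (σ y), ⟨σ y, hσy, rfl⟩⟩)).trans
      (placeRed_qbarC hA hσy _)).trans (Fermat.Agent.Galois.residue_eq_residue_iff.2 ?_)
  exact Fermat.Agent.Galois.inertia_sub_mem_nonunits hσ hy

theorem extC_rootOfUnity_frob {σ : GalQ} (hσ : A.IsFrobeniusAt σ p)
    (hA : A.LiesOverPrime p) {m : ℕ} (hm : ¬ p ∣ m) {x : ℂ} (hx : x ^ m = 1) :
    extC σ x = x ^ p := by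
  have hm0 : m ≠ 0 := fun h0 => hm (h0 ▸ dvd_zero p)
  obtain ⟨y, rfl⟩ := exists_qbarC_eq (isAlgebraic_of_pow_eq_one hm0 hx)
  rw [extC_qbarC, Fermat.Agent.Galois.isFrobeniusAt_apply_rootOfUnity hA hp.out hσ hm
    (qbarC_injective (by rw [map_pow, hx, map_one])), map_pow]

theorem extC_rootOfUnity_inertia {σ : GalQ} (hσ : σ ∈ A.inertiaSubgroupIn ℚ)
    (hA : A.LiesOverPrime p) {m : ℕ} (hm : ¬ p ∣ m) {x : ℂ} (hx : x ^ m = 1) :
    extC σ x = x := by
  have hm0 : m ≠ 0 := fun h0 => hm (h0 ▸ dvd_zero p)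
  obtain ⟨y, rfl⟩ := exists_qbarC_eq (isAlgebraic_of_pow_eq_one hm0 hx)
  rw [extC_qbarC, Fermat.Agent.Galois.inertia_apply_rootOfUnity hA hp.out hσ hm
    (qbarC_injective (by rw [map_pow, hx, map_one]))]

end Fermat.Agent.DS.G1
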